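import Fermat.Agent.Ribet.H704.EisSpec
import Fermat.Agent.Ribet.H884.EisSpec

/-!
# RIBET row 38, WALL-p, (S4) = `H884.EisSlopeStatement`: WEAK forms of the crux (helper307)

Two proved assemblies of `H884.EisSlopeStatement` are on main:
`H884.eisSlope_of` (crux `H884.CoreOutStatement`) and `H704.Eis.eisSlope_of`
(crux `H704.Eis.EisOutStatement`).  This file weakens BOTH crux statements, additively:

* the crux may use the hypothesis `NonEisAway p a` (`H944.Wall`): if it fails, then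
  `a ℓ ≡ ℓ + 1 (mod p)` off a finite set and `IsEisMod` is trivial because `p • x = 0`
  (`isEisMod_of_not_nonEisAway`);
* the field `slope` of `H704.Eis.UnitData` ("`FinGenOff (D ^ n) → p ∣ n`", i.e. some slope of the
  modular unit is prime to `p`: a thickness / Hasse-invariant statement) is NOT needed:
  with `NonEisAway` pick `ℓ` with `p ∤ (ℓ + 1) - a ℓ`; the Hecke argument gives
  `FinGenOff (D ^ (i * ((ℓ + 1) - a ℓ)))`, and extraction of roots of exponent prime to `p`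
  (`H884.NodeGen.of_pow`, from REDEX/REDUNIQ/REDFIELD) gives `FinGenOff (D ^ i)`, hence
  `FinGenOff f` and `x ∈ 𝓕`.

## Statements
* `UnitHecke p M' A D`   : `UnitData` without `slope`;
* `EisOutNEStatement`    : `EisOutStatement` with the extra hypothesis `NonEisAway p a` and
                           `UnitHecke` instead of `UnitData`;
* `CoreOutNEStatement`   : `H884.CoreOutStatement` with the extra hypothesis `NonEisAway p a`.

## Proved
* `eisOutNE_of_eisOut : EisOutStatement → EisOutNEStatement`,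
  `coreOutNE_of_coreOut : CoreOutStatement → CoreOutNEStatement`;
* `eisSlope_of_eisOutNE`  : leaves of `H704.Eis.eisSlope_of` + REDUNIQ + `EisOutNEStatement`
                            ⟹ `EisSlopeStatement`;
* `eisSlope_of_coreOutNE` : leaves of `H884.eisSlope_of` + `CoreOutNEStatement`
                            ⟹ `EisSlopeStatement`.
-/

set_option autoImplicit false
set_option linter.style.haveILetI false
set_option synthInstance.maxHeartbeats 400000
set_option maxHeartbeats 1000000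

noncomputable section

namespace Fermat.Agent.Ribet.H307.Eis

open AlgebraicCurve ModularCurve HahnSeries
open Fermat.Agent.S24 Fermat.Agent.A2.H708 Fermat.Agent.A2.H528
open Fermat.Agent.Ribet.Spec Fermat.Agent.Ribet.H944.Wall Fermat.Agent.Ribet.H884
open Fermat.Agent.Ribet.H944.I2 Fermat.Agent.S37.H697
open Fermat.Agent.Ribet.H704.Eis

/-! ## `FinGenOff` (H704) is `NodeGen` (H884); extraction of roots -/

section Roots

variable {p M' : ℕ} [NeZero (p * M')] {A : ValuationSubring Kbar}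

theorem finGenOff_iff_nodeGen {f : FF (p * M')} :
    FinGenOff p M' A f ↔ NodeGen p M' A f :=
  Iff.rfl

/-- Extraction of `n`-th roots, `p ∤ n`. -/
theorem finGenOff_of_pow [NeZero M'] [NeZero p] (hRE : RedExistsStatement)
    (hRU : RedUniqueStatement) (hRF : RedFieldStatement) (hp : p.Prime) (hpM : ¬ p ∣ M')
    (hA : A.LiesOverPrime p) {n : ℕ} (hn : ¬ p ∣ n) {g : FF (p * M')} (hg : g ≠ 0)
    (h : FinGenOff p M' A (g ^ n)) : FinGenOff p M' A g :=
  finGenOff_iff_nodeGen.mpr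
    (NodeGen.of_pow hRE hRU hRF hp hpM hA hn hg (finGenOff_iff_nodeGen.mp h))

/-- Extraction of roots of integral exponent `c`, `p ∤ c`. -/
theorem finGenOff_of_zpow [NeZero M'] [NeZero p] (hRE : RedExistsStatement)
    (hRU : RedUniqueStatement) (hRF : RedFieldStatement) (hp : p.Prime) (hpM : ¬ p ∣ M')
    (hA : A.LiesOverPrime p) {c : ℤ} (hc : ¬ (p : ℤ) ∣ c) {g : FF (p * M')} (hg : g ≠ 0)
    (h : FinGenOff p M' A (g ^ c)) : FinGenOff p M' A g := by
  rcases Int.natAbs_eq c with hc' | hc'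
  · have hn : ¬ p ∣ c.natAbs := fun hd => hc (Int.natCast_dvd.mpr hd)
    rw [hc', zpow_natCast] at h
    exact finGenOff_of_pow hRE hRU hRF hp hpM hA hn hg h
  · have hn : ¬ p ∣ c.natAbs := fun hd => hc (Int.natCast_dvd.mpr hd)
    rw [hc', zpow_neg, zpow_natCast] at h
    have h' := finGenOff_inv h
    rw [inv_inv] at h'
    exact finGenOff_of_pow hRE hRU hRF hp hpM hA hn hg h'

end Roots

/-! ## The weak crux statements -/

/-- `UnitData` without the field `slope`: `D ≠ 0` and `T_ℓ D / D ^ (ℓ + 1)` has slopes `0`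
away from the cusps. -/
structure UnitHecke (p M' : ℕ) [NeZero (p * M')] (A : ValuationSubring Kbar)
    (D : FF (p * M')) : Prop where
  ne_zero : D ≠ 0
  hecke : ∀ (ℓ : ℕ) [NeZero ℓ], ℓ.Prime → ¬ ℓ ∣ p * M' →
    FinGenOff p M' A (hNorm (p * M') ℓ D * (D ^ (ℓ + 1))⁻¹)

theorem unitHecke_of_unitData {p M' : ℕ} [NeZero (p * M')] {A : ValuationSubring Kbar}
    {D : FF (p * M')} (h : UnitData p M' A D) : UnitHecke p M' A D :=
  ⟨h.ne_zero, fun ℓ _ hℓ hℓN => h.hecke ℓ hℓ hℓN⟩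

/-- **EIS-OUT, weak form**: `H704.Eis.EisOutStatement` with the additional hypothesis
`NonEisAway p a` and without the slope condition on the unit `D`. -/
def EisOutNEStatement : Prop :=
  ∀ (p M' : ℕ) [NeZero M'] [NeZero p] [NeZero (p * M')], p.Prime → 5 ≤ p → ¬ p ∣ M' →
    ∀ A : ValuationSubring Kbar, A.LiesOverPrime p →
    ∀ (S : Finset ℕ) (a : ℕ → ℤ) (x t : JZero (p * M')),
      IsNewTors p M' x → EigenAt (p * M') S a x →
      IsNewTors p M' t → EigenAt (p * M') S a t →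
      (∀ σ ∈ A.inertiaSubgroupIn ℚ, ∀ c : ℕ, CycloAt p σ c → σ • t = c • t) →
      (∀ σ ∈ A.inertiaSubgroupIn ℚ, ∃ n : ℕ, σ • x = x + n • t) →
      (∀ σ : GQ, PeuFixes A p σ → σ • x = x) →
      NonEisAway p a →
      ∃ f : FF (p * M'), IsKummerGen (p * M') p f x ∧
        (FinGenOff p M' A f ∨
          ∃ (D : FF (p * M')) (i : ℤ), UnitHecke p M' A D ∧ FinGenOff p M' A (f * D ^ i))

/-- **CORE-OUT, weak form**: `H884.CoreOutStatement` with the additional hypothesis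
`NonEisAway p a`. -/
def CoreOutNEStatement : Prop :=
  ∀ (p M' : ℕ) [NeZero M'] [NeZero p] [NeZero (p * M')], p.Prime → 5 ≤ p → ¬ p ∣ M' →
    ∀ A : ValuationSubring Kbar, A.LiesOverPrime p →
    ∀ (S : Finset ℕ) (a : ℕ → ℤ) (x t : JZero (p * M')),
      IsNewTors p M' x → EigenAt (p * M') S a x →
      IsNewTors p M' t → EigenAt (p * M') S a t →
      (∀ σ ∈ A.inertiaSubgroupIn ℚ, ∀ c : ℕ, CycloAt p σ c → σ • t = c • t) →
      (∀ σ ∈ A.inertiaSubgroupIn ℚ, ∃ n : ℕ, σ • x = x + n • t) →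
      (∀ σ : GQ, PeuFixes A p σ → σ • x = x) →
      NonEisAway p a →
      SlopeProp p M' A x

theorem eisOutNE_of_eisOut (h : EisOutStatement) : EisOutNEStatement := by
  intro p M' _ _ _ hp hp5 hpM A hA S a x t hx hex ht het hχ hsh hpeu _
  obtain ⟨f, hfK, hcase⟩ := h p M' hp hp5 hpM A hA S a x t hx hex ht het hχ hsh hpeu
  refine ⟨f, hfK, ?_⟩
  rcases hcase with hf | ⟨D, i, hD, hfD⟩
  · exact Or.inl hf
  · exact Or.inr ⟨D, i, unitHecke_of_unitData hD, hfD⟩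

theorem coreOutNE_of_coreOut (h : CoreOutStatement) : CoreOutNEStatement := by
  intro p M' _ _ _ hp hp5 hpM A hA S a x t hx hex ht het hχ hsh hpeu _
  exact h p M' hp hp5 hpM A hA S a x t hx hex ht het hχ hsh hpeu

/-! ## The modular unit satisfies `UnitHecke` -/

/-- The `t`-expansion of the function-level Hecke operator `Nm_α ∘ β` is the formal Kronecker
norm.  (Proved on main: `H398.coe_heckeNorm_eq_kronNorm`; kept as a hypothesis here so that this
file imports the two Spec files only.) -/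
def HNormCoeStatement : Prop :=
  ∀ (N ℓ : ℕ) [NeZero N] [NeZero ℓ], ℓ.Prime → ¬ ℓ ∣ N → ∀ f : FF N,
    ((hNorm N ℓ f : FF N) : LaurentSeries Kbar) =
      Fermat.Agent.S37.H400.kronNorm ℓ (f : LaurentSeries Kbar)

/-- The modular unit `Δ(t^p)/Δ(t)` (any element of `FF (p M')` with this `t`-expansion)
satisfies `UnitHecke`: `T_ℓ D = c · D ^ (ℓ + 1)` by UNIT-EIS. -/
theorem unitHecke_of_isModUnit (hHC : HNormCoeStatement) (hU : UnitEisStatement)
    {p M' : ℕ} [NeZero p] [NeZero (p * M')] (hp : p.Prime) {A : ValuationSubring Kbar}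
    {D : FF (p * M')} (hD : IsModUnit p M' D) (hD0 : D ≠ 0) : UnitHecke p M' A D := by
  refine ⟨hD0, fun ℓ _ hℓ hℓN => ?_⟩
  have hℓp : ℓ ≠ p := fun h => hℓN (h ▸ dvd_mul_right _ _)
  haveI : NeZero ((⟨ℓ, hℓ⟩ : Nat.Primes) : ℕ) := ⟨hℓ.ne_zero⟩
  obtain ⟨c, hc, hUD⟩ := hU p ⟨ℓ, hℓ⟩ hp hℓp
  have hD' : (D : LaurentSeries Kbar) = Fermat.Agent.S28.unitL Kbar p := hD
  have hY : hNorm (p * M') ℓ D = algebraMap Kbar (FF (p * M')) c * D ^ (ℓ + 1) := by
    apply Subtype.ext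
    have hCE : ((algebraMap Kbar (FF (p * M')) c * D ^ (ℓ + 1) : FF (p * M')) :
        LaurentSeries Kbar) = cst c * (D : LaurentSeries Kbar) ^ (ℓ + 1) := rfl
    rw [hHC (p * M') ℓ hℓ hℓN D, hCE, hD']
    exact hUD
  have e : hNorm (p * M') ℓ D * (D ^ (ℓ + 1))⁻¹ = algebraMap Kbar (FF (p * M')) c := by
    rw [hY, mul_assoc, mul_inv_cancel₀ (pow_ne_zero _ hD0), mul_one]
  rw [e]
  exact finGenOff_const hc

/-- `SlopeProp` (H884) gives the weak EIS-OUT conclusion (H704 form): from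
`G · D ^ b = f ^ n · D ^ a`, `p ∤ n`, `NodeGen G` one gets `FinGenOff (f · D ^ i)` for a suitable
`i`. -/
theorem eisOut_of_slopeProp (hHC : HNormCoeStatement) (hU : UnitEisStatement)
    (hEx : RedExistsStatement) (hRF : RedFieldStatement)
    {p M' : ℕ} [NeZero M'] [NeZero p] [NeZero (p * M')] (hp : p.Prime) (hpM : ¬ p ∣ M')
    {A : ValuationSubring Kbar} (hA : A.LiesOverPrime p) {x : JZero (p * M')}
    (hx : SlopeProp p M' A x) :
    ∃ f : FF (p * M'), IsKummerGen (p * M') p f x ∧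
      ∃ (D : FF (p * M')) (i : ℤ), UnitHecke p M' A D ∧ FinGenOff p M' A (f * D ^ i) := by
  obtain ⟨f, D, G, n, a, b, hfK, hD, hD0, hn, hG, hNG⟩ := hx
  have hf0 : f ≠ 0 := hfK.1
  refine ⟨f, hfK, D, ?_⟩
  -- `m n = 1 + p k`
  have hcop : Nat.Coprime n p := ((Nat.Prime.coprime_iff_not_dvd hp).mpr hn).symm
  obtain ⟨m, -, hm⟩ := Nat.exists_mul_mod_eq_one_of_coprime hcop hp.one_lt
  obtain ⟨k, hk⟩ : ∃ k, n * m = 1 + p * k := by
    refine ⟨n * m / p, ?_⟩
    have := Nat.div_add_mod (n * m) p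
    rw [hm] at this
    omega
  refine ⟨(m : ℤ) * ((a : ℤ) - (b : ℤ)), unitHecke_of_isModUnit hHC hU hp hD hD0, ?_⟩
  -- `f * D ^ (m (a - b)) = G ^ m * ((f ^ k) ^ p)⁻¹`
  have hGm : FinGenOff p M' A (G ^ m) := by
    have := finGenOff_zpow (finGenOff_iff_nodeGen.mpr hNG) (m : ℤ)
    rwa [zpow_natCast] at this
  have hfk : FinGenOff p M' A ((f ^ k) ^ p) :=
    finGenOff_pow_p hEx hRF hp hpM hA (pow_ne_zero k hf0)
  have hDb : D ^ b ≠ 0 := pow_ne_zero _ hD0
  have hDa : D ^ a ≠ 0 := pow_ne_zero _ hD0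
  have e0 : (f ^ n) ^ m = f * (f ^ k) ^ p := by
    rw [← pow_mul, hk, _root_.pow_add, pow_one, ← pow_mul, Nat.mul_comm k p]
  have e1 : G ^ m * (D ^ b) ^ m = f * (f ^ k) ^ p * (D ^ a) ^ m := by
    rw [← e0, ← mul_pow, ← mul_pow, hG]
  have e : f * D ^ ((m : ℤ) * ((a : ℤ) - (b : ℤ))) = G ^ m * ((f ^ k) ^ p)⁻¹ := by
    have hfk0 : (f ^ k) ^ p ≠ 0 := pow_ne_zero _ (pow_ne_zero _ hf0)
    have e2 : D ^ ((m : ℤ) * ((a : ℤ) - (b : ℤ))) = (D ^ a) ^ m * ((D ^ b) ^ m)⁻¹ := by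
      have h3 : (m : ℤ) * ((a : ℤ) - (b : ℤ)) = ((a : ℤ) - (b : ℤ)) * (m : ℤ) :=
        Int.mul_comm _ _
      rw [h3, zpow_mul, zpow_sub₀ hD0, zpow_natCast, zpow_natCast, zpow_natCast,
        div_pow, div_eq_mul_inv]
    rw [e2]
    have hDbm : (D ^ b) ^ m ≠ 0 := pow_ne_zero _ hDb
    field_simp
    linear_combination -e1
  rw [e]
  exact finGenOff_mul hGm (finGenOff_inv hfk)

/-- **CORE-OUT (weak) gives EIS-OUT (weak).** -/
theorem eisOutNE_of_coreOutNE (hHC : HNormCoeStatement) (hU : UnitEisStatement)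
    (hEx : RedExistsStatement) (hRF : RedFieldStatement) (h : CoreOutNEStatement) :
    EisOutNEStatement := by
  intro p M' _ _ _ hp hp5 hpM A hA S a x t hx hex ht het hχ hsh hpeu hNE
  obtain ⟨f, hfK, D, i, hD, hfD⟩ := eisOut_of_slopeProp hHC hU hEx hRF hp hpM hA
    (h p M' hp hp5 hpM A hA S a x t hx hex ht het hχ hsh hpeu hNE)
  exact ⟨f, hfK, Or.inr ⟨D, i, hD, hfD⟩⟩

/-! ## The Eisenstein case -/

/-- If the eigenvalues are Eisenstein modulo `p` off a finite set, then `IsEisMod` holds for every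
`p`-torsion eigenclass (for trivial reasons). -/
theorem isEisMod_of_not_nonEisAway {p M' : ℕ} [NeZero (p * M')] {A : ValuationSubring Kbar}
    {S : Finset ℕ} {a : ℕ → ℤ} {x : JZero (p * M')} (hpx : p • x = 0)
    (hex : EigenAt (p * M') S a x) (hNE : ¬ NonEisAway p a) :
    ∃ S' : Finset ℕ, IsEisMod p M' A S' x := by
  have hNE' : ¬ ∀ S : Finset ℕ, ∃ ℓ : ℕ, ℓ.Prime ∧ ℓ ∉ S ∧ ¬ (p : ℤ) ∣ a ℓ - (ℓ + 1) := hNE
  rw [not_forall] at hNE'
  obtain ⟨S₀, hS₀'⟩ := hNE'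
  have hS₀ : ∀ ℓ : ℕ, ℓ.Prime → ℓ ∉ S₀ → (p : ℤ) ∣ a ℓ - (ℓ + 1) := by
    intro ℓ hℓ hℓS
    by_contra hnd
    exact hS₀' ⟨ℓ, hℓ, hℓS, hnd⟩
  refine ⟨S ∪ S₀, fun ℓ hℓ => ?_⟩
  have hℓS : (ℓ : ℕ) ∉ S := fun h => hℓ (Finset.mem_union_left _ h)
  have hℓS₀ : (ℓ : ℕ) ∉ S₀ := fun h => hℓ (Finset.mem_union_right _ h)
  obtain ⟨q, hq⟩ := hS₀ (ℓ : ℕ) ℓ.2 hℓS₀
  rw [hex ℓ hℓS]
  have e : a ℓ • x - ((ℓ : ℕ) + 1) • x = (a ℓ - (((ℓ : ℕ) : ℤ) + 1)) • x := by
    have h3 : (((ℓ : ℕ) : ℤ) + 1) = ((((ℓ : ℕ) + 1 : ℕ)) : ℤ) := by push_cast; ring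
    rw [sub_smul, h3, natCast_zsmul]
  rw [e, hq]
  have e3 : ((p : ℤ) * q) • x = 0 := by
    have e4 : (p : ℤ) * q = q * (p : ℤ) := mul_comm _ _
    rw [e4, mul_smul, natCast_zsmul, hpx, smul_zero]
  rw [e3]
  exact (finPart p M' A).zero_mem

/-! ## The glue, H704 route -/

/-- **(S4) = EIS from the leaves of `H704.Eis.eisSlope_of`, with the WEAK crux.** -/
theorem eisSlope_of_eisOutNE (hEx : RedExistsStatement) (hRU : RedUniqueStatement)
    (hRF : RedFieldStatement) (hRes : ResFieldStatement) (hK : KumEigStatement)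
    (hFH : FrickeHeckeStatement) (hHR : HeckeRedStatement) (hKO : KnormOffStatement)
    (hOF : OffFinStatement) (hEO : EisOutNEStatement) : EisSlopeStatement := by
  intro p M' _ _ _ hp hp5 hpM A hA S a x t hx hex ht het hχ hsh hpeu
  by_cases hNE : NonEisAway p a
  swap
  · exact isEisMod_of_not_nonEisAway hx.1 hex hNE
  obtain ⟨f, hfK, hcase⟩ := hEO p M' hp hp5 hpM A hA S a x t hx hex ht het hχ hsh hpeu hNE
  have hf0 : f ≠ 0 := hfK.1
  -- if `f` itself has slopes `0` away from the cusps, then `x ∈ 𝓕`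
  have hfin : FinGenOff p M' A f → ∃ S' : Finset ℕ, IsEisMod p M' A S' x := by
    intro hf
    have hxF : x ∈ finPart p M' A :=
      AddSubgroup.subset_closure ⟨f, hfK, hOF p M' hp hpM A hA x f hfK hf⟩
    refine ⟨S, fun ℓ hℓ => ?_⟩
    rw [hex ℓ hℓ]
    exact (finPart p M' A).sub_mem ((finPart p M' A).zsmul_mem hxF _)
      ((finPart p M' A).nsmul_mem hxF _)
  rcases hcase with hf | ⟨D, i, hD, hfD⟩
  · exact hfin hf
  have hD0 : D ≠ 0 := hD.ne_zero
  -- a non-Eisenstein prime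
  obtain ⟨ℓ, hℓp, hℓ, hℓne⟩ := hNE (S ∪ (p * M').primeFactors)
  have hℓS : ℓ ∉ S := fun h => hℓ (Finset.mem_union_left _ h)
  have hℓN : ¬ ℓ ∣ p * M' := by
    intro hd
    exact hℓ (Finset.mem_union_right _
      (Nat.mem_primeFactors.mpr ⟨hℓp, hd, NeZero.ne (p * M')⟩))
  haveI : NeZero ℓ := ⟨hℓp.ne_zero⟩
  obtain ⟨c, G, hc, hG, hX⟩ := hK (p * M') p hp.ne_zero S a x f hfK hex ℓ hℓp hℓS hℓN
  set X := hNorm (p * M') ℓ f with hXdef
  set Y := hNorm (p * M') ℓ D with hYdef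
  set c' : FF (p * M') := algebraMap Kbar (FF (p * M')) c with hc'def
  have hc'0 : c' ≠ 0 := by
    rw [hc'def]
    exact (map_ne_zero (algebraMap Kbar (FF (p * M')))).mpr hc
  -- step (a)
  have ha : FinGenOff p M' A (X * Y ^ i) := by
    have h := finGenOff_hNorm hFH hHR hRes hKO hp hpM hA hℓp hℓN hfD
    have e : hNorm (p * M') ℓ (f * D ^ i) = X * Y ^ i := by
      rw [hXdef, hYdef, ← hNorm_zpow' _ _ hD0]
      exact Fermat.Agent.S29.H395.heckeNorm_mul _ _ _ _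
    rwa [e] at h
  -- `Y ≠ 0`
  have hYD := hD.hecke ℓ hℓp hℓN
  have hY0 : Y ≠ 0 := by
    obtain ⟨r₁, -, h1, -⟩ := hYD
    have := (isRedInf_ne_zero _ A h1).1
    exact left_ne_zero_of_mul this
  have hfa0 : f ^ (a ℓ) ≠ 0 := zpow_ne_zero _ hf0
  have hGp0 : G ^ p ≠ 0 := pow_ne_zero _ hG
  have hYi0 : Y ^ i ≠ 0 := zpow_ne_zero _ hY0
  have hDi0 : D ^ i ≠ 0 := zpow_ne_zero _ hD0
  have hDia0 : (D ^ i) ^ (a ℓ) ≠ 0 := zpow_ne_zero _ hDi0
  have hDl0 : D ^ (ℓ + 1) ≠ 0 := pow_ne_zero _ hD0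
  have hDli0 : (D ^ (ℓ + 1)) ^ i ≠ 0 := zpow_ne_zero _ hDl0
  -- step (b)
  have hb : FinGenOff p M' A (f ^ (a ℓ) * Y ^ i) := by
    have e : f ^ (a ℓ) * Y ^ i = X * Y ^ i * c'⁻¹ * (G ^ p)⁻¹ := by
      rw [hX]
      field_simp
    rw [e]
    exact finGenOff_mul (finGenOff_mul ha (finGenOff_inv (finGenOff_const hc)))
      (finGenOff_inv (finGenOff_pow_p hEx hRF hp hpM hA hG))
  -- step (c)
  have hc2 : FinGenOff p M' A (f ^ (a ℓ) * (D ^ i) ^ (a ℓ)) := by
    rw [← mul_zpow]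
    exact finGenOff_zpow hfD _
  -- step (d)
  have hd : FinGenOff p M' A (Y ^ i * ((D ^ i) ^ (a ℓ))⁻¹) := by
    have e : Y ^ i * ((D ^ i) ^ (a ℓ))⁻¹ =
        f ^ (a ℓ) * Y ^ i * (f ^ (a ℓ) * (D ^ i) ^ (a ℓ))⁻¹ := by
      field_simp
    rw [e]
    exact finGenOff_mul hb (finGenOff_inv hc2)
  -- step (e)
  have he : FinGenOff p M' A (Y ^ i * ((D ^ (ℓ + 1)) ^ i)⁻¹) := by
    have h := finGenOff_zpow hYD i
    rwa [mul_zpow, inv_zpow] at h
  -- step (f)
  have hf' : FinGenOff p M' A ((D ^ (ℓ + 1)) ^ i * ((D ^ i) ^ (a ℓ))⁻¹) := by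
    have e : (D ^ (ℓ + 1)) ^ i * ((D ^ i) ^ (a ℓ))⁻¹ =
        Y ^ i * ((D ^ i) ^ (a ℓ))⁻¹ * (Y ^ i * ((D ^ (ℓ + 1)) ^ i)⁻¹)⁻¹ := by
      field_simp
    rw [e]
    exact finGenOff_mul hd (finGenOff_inv he)
  -- step (g): the exponent is `i * ((ℓ + 1) - a ℓ)`
  have hg : (D ^ (ℓ + 1)) ^ i * ((D ^ i) ^ (a ℓ))⁻¹ =
      (D ^ i) ^ (((ℓ : ℤ) + 1) - a ℓ) := by
    rw [zpow_sub₀ hDi0, div_eq_mul_inv]
    congr 1
    rw [← zpow_natCast D (ℓ + 1), ← zpow_mul, ← zpow_mul]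
    congr 1
    push_cast
    ring
  rw [hg] at hf'
  -- root extraction
  have hcop : ¬ (p : ℤ) ∣ ((ℓ : ℤ) + 1) - a ℓ := by
    intro hd'
    apply hℓne
    have : a ℓ - ((ℓ : ℤ) + 1) = -(((ℓ : ℤ) + 1) - a ℓ) := by ring
    rw [this]
    exact (dvd_neg).mpr hd'
  have hDi : FinGenOff p M' A (D ^ i) :=
    finGenOff_of_zpow hEx hRU hRF hp hpM hA hcop hDi0 hf'
  apply hfin
  have e : f = f * D ^ i * (D ^ i)⁻¹ := by
    rw [mul_assoc, mul_inv_cancel₀ hDi0, mul_one]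
  rw [e]
  exact finGenOff_mul hfD (finGenOff_inv hDi)

/-- **(S4) = EIS from the leaves of `H704.Eis.eisSlope_of`**, with the frozen crux
`H704.Eis.EisOutStatement` (the field `slope` is not used). -/
theorem eisSlope_of_eisOut (hEx : RedExistsStatement) (hRU : RedUniqueStatement)
    (hRF : RedFieldStatement) (hRes : ResFieldStatement) (hK : KumEigStatement)
    (hFH : FrickeHeckeStatement) (hHR : HeckeRedStatement) (hKO : KnormOffStatement)
    (hOF : OffFinStatement) (hEO : EisOutStatement) : EisSlopeStatement :=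
  eisSlope_of_eisOutNE hEx hRU hRF hRes hK hFH hHR hKO hOF (eisOutNE_of_eisOut hEO)

/-! ## The glue, H884 route -/

/-- **(S4) = EIS from the leaves of `H884.eisSlope_of`, with the WEAK crux.** -/
theorem eisSlope_of_coreOutNE (hCO : CoreOutNEStatement) (hHF : HeckeFunStatement)
    (hHN : HeckeNodeGenStatement) (hU : UnitEisStatement) (hCP : CuspPurityStatement)
    (hRE : RedExistsStatement) (hRU : RedUniqueStatement) (hRF : RedFieldStatement) :
    EisSlopeStatement := by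
  intro p M' _ _ _ hp hp5 hpM A hA S a x t hx hex ht het hχ hsh hpeu
  by_cases hNE : NonEisAway p a
  · exact ⟨(p * M').primeFactors,
      isEisMod_of_slopeProp hHF hHN hU hCP hRE hRU hRF p M' hp hpM A hA x
        (hCO p M' hp hp5 hpM A hA S a x t hx hex ht het hχ hsh hpeu hNE)⟩
  · exact isEisMod_of_not_nonEisAway hx.1 hex hNE

end Fermat.Agent.Ribet.H307.Eis

end
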